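import Fermat.Agent.S55.Inv.GO4.H978.Abs
import Fermat.Agent.S55.K.Defs

/-!
# S55 / `InvSpec` / GO4-LD (helper978): orbit decomposition of `K.ind φ U A`

`φ : H →* G`, `U ≤ G` normal of finite index, `W = φ⁻¹ U`.  The `H`-set `G ⧸ U` is a finite
disjoint union of orbits, each isomorphic to `H ⧸ W`; hence

  `K.ind φ U A  =  ⊕_{orbits} KC.indR W A`   (equivariantly).

* `orbMap φ U x : H ⧸ W → G ⧸ U`, `h W ↦ φ h • x` (injective, equivariant);
* `orbE φ U A x : indR W A →+ ind φ U A` (push-forward), `orbP φ U A x` (pull-back), equivariant;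
* `sum_orbE_orbP` : `∑_{orbits} orbE (orbP b) = b`;
* `exists_sum_of_single` : a statement of the form "every `p`-torsion level-constant class is
  represented at level `V₁`" passes from `indR W A` to `ind φ U A`.
-/

set_option autoImplicit false
set_option linter.style.haveILetI false
set_option linter.unusedSectionVars false

noncomputable section

namespace Fermat.Agent.S55.Inv.GO4.H978

open groupCohomology Fermat.Agent.S55 Fermat.Agent.S55.PT Fermat.Agent.S55.KC

variable {G H : Type} [Group G] [Group H] (φ : H →* G) (U : Subgroup G) [hU : U.Normal]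

/-- a normal subgroup acts trivially on its quotient -/
lemma smul_quot_eq_of_mem {u : G} (hu : u ∈ U) (x : G ⧸ U) : u • x = x := by
  induction x using QuotientGroup.induction_on with
  | H g =>
    show ((u * g : G) : G ⧸ U) = (g : G ⧸ U)
    rw [QuotientGroup.eq]
    have h1 : g⁻¹ * u⁻¹ * g⁻¹⁻¹ ∈ U := hU.conj_mem _ (U.inv_mem hu) g⁻¹
    have h2 : (u * g)⁻¹ * g = g⁻¹ * u⁻¹ * g⁻¹⁻¹ := by group
    rw [h2]
    exact h1

/-- the stabiliser of every point of `G ⧸ U` is `U` -/
lemma mem_of_smul_quot_eq {u : G} (x : G ⧸ U) (h : u • x = x) : u ∈ U := by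
  induction x using QuotientGroup.induction_on with
  | H g =>
    have h' : ((u * g : G) : G ⧸ U) = (g : G ⧸ U) := h
    rw [QuotientGroup.eq] at h'
    have h1 : g * ((u * g)⁻¹ * g) * g⁻¹ ∈ U := hU.conj_mem _ h' g
    have h2 : g * ((u * g)⁻¹ * g) * g⁻¹ = u⁻¹ := by group
    rw [h2] at h1
    simpa using U.inv_mem h1

/-- the orbit map `H ⧸ φ⁻¹U → G ⧸ U`, `h ↦ φ h • x` -/
def orbMap (x : G ⧸ U) : H ⧸ U.comap φ → G ⧸ U :=
  Quotient.lift (fun h : H => φ h • x) (by
    intro a b hab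
    have hab' : a⁻¹ * b ∈ U.comap φ := QuotientGroup.leftRel_apply.1 hab
    have h1 : φ (a⁻¹ * b) • x = x := smul_quot_eq_of_mem U (Subgroup.mem_comap.1 hab') x
    show φ a • x = φ b • x
    have h2 : φ b = φ a * φ (a⁻¹ * b) := by
      rw [← map_mul]; congr 1; group
    rw [h2, mul_smul, h1])

@[simp] lemma orbMap_mk (x : G ⧸ U) (h : H) :
    orbMap φ U x (h : H ⧸ U.comap φ) = φ h • x := rfl

lemma orbMap_smul (x : G ⧸ U) (h : H) (c : H ⧸ U.comap φ) :
    orbMap φ U x (h • c) = φ h • orbMap φ U x c := by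
  induction c using QuotientGroup.induction_on with
  | H h' =>
    show φ (h * h') • x = φ h • (φ h' • x)
    rw [map_mul, mul_smul]

lemma orbMap_injective (x : G ⧸ U) : Function.Injective (orbMap φ U x) := by
  intro c c' hcc
  induction c using QuotientGroup.induction_on with
  | H a =>
    induction c' using QuotientGroup.induction_on with
    | H b =>
      have h0 : φ a • x = φ b • x := hcc
      have h1 : φ (a⁻¹ * b) • x = x := by
        rw [map_mul, mul_smul, ← h0, ← mul_smul, map_inv, inv_mul_cancel, one_smul]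
      have h2 : φ (a⁻¹ * b) ∈ U := mem_of_smul_quot_eq U x h1
      exact QuotientGroup.eq.2 (Subgroup.mem_comap.2 h2)

/-- the orbit relation on `G ⧸ U` -/
def orbSetoid : Setoid (G ⧸ U) where
  r x y := ∃ h : H, φ h • x = y
  iseqv :=
    { refl := fun x => ⟨1, by rw [map_one, one_smul]⟩
      symm := by
        rintro x y ⟨h, rfl⟩
        exact ⟨h⁻¹, by rw [map_inv, inv_smul_smul]⟩
      trans := by
        rintro x y z ⟨h, rfl⟩ ⟨h', rfl⟩
        exact ⟨h' * h, by rw [map_mul, mul_smul]⟩ }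

/-- the set of orbits -/
abbrev Orb : Type := Quotient (orbSetoid φ U)

/-- the chosen representative of an orbit -/
def orbRep (i : Orb φ U) : G ⧸ U := Quotient.out i

lemma exists_orbMap_eq (y : G ⧸ U) :
    ∃ c : H ⧸ U.comap φ, orbMap φ U (orbRep φ U (Quotient.mk (orbSetoid φ U) y)) c = y := by
  have h : (orbSetoid φ U).r (orbRep φ U (Quotient.mk (orbSetoid φ U) y)) y :=
    Quotient.exact (Quotient.out_eq (Quotient.mk (orbSetoid φ U) y))
  obtain ⟨h, hh⟩ := h
  exact ⟨(h : H ⧸ U.comap φ), hh⟩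

lemma orb_eq_of_orbMap_eq {i : Orb φ U} {c : H ⧸ U.comap φ} {y : G ⧸ U}
    (h : orbMap φ U (orbRep φ U i) c = y) : Quotient.mk (orbSetoid φ U) y = i := by
  induction c using QuotientGroup.induction_on with
  | H a =>
    have h1 : (orbSetoid φ U).r (orbRep φ U i) y := ⟨a, h⟩
    have h2 : Quotient.mk (orbSetoid φ U) (orbRep φ U i) = Quotient.mk (orbSetoid φ U) y :=
      Quotient.sound h1
    rw [← h2]
    exact Quotient.out_eq i

variable (A : Rep.{0, 0, 0} ℤ H)

/-! ### raw `Finsupp` computations -/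

section Raw

variable {φ U}
variable (X₀ : Type) [AddCommGroup X₀] (r : H → X₀ →+ X₀)

/-- the diagonal action on `(G ⧸ U →₀ X₀)`, raw form -/
def actG (h : H) (b : (G ⧸ U) →₀ X₀) : (G ⧸ U) →₀ X₀ :=
  Finsupp.mapDomain (fun x : G ⧸ U => φ h • x) (Finsupp.mapRange (r h) (map_zero _) b)

/-- the diagonal action on `(H ⧸ W →₀ X₀)`, raw form -/
def actH (W : Subgroup H) (h : H) (b : (H ⧸ W) →₀ X₀) : (H ⧸ W) →₀ X₀ :=
  Finsupp.mapDomain (fun x : H ⧸ W => h • x) (Finsupp.mapRange (r h) (map_zero _) b)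

omit hU in
lemma actG_apply (h : H) (b : (G ⧸ U) →₀ X₀) (y : G ⧸ U) :
    actG (φ := φ) (U := U) X₀ r h b (φ h • y) = r h (b y) := by
  unfold actG
  rw [Finsupp.mapDomain_apply (MulAction.injective (φ h)), Finsupp.mapRange_apply]

lemma actH_apply (W : Subgroup H) (h : H) (b : (H ⧸ W) →₀ X₀) (c : H ⧸ W) :
    actH X₀ r W h b (h • c) = r h (b c) := by
  unfold actH
  rw [Finsupp.mapDomain_apply (MulAction.injective h), Finsupp.mapRange_apply]

omit hU in
lemma actG_single (h : H) (x : G ⧸ U) (a : X₀) :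
    actG (φ := φ) (U := U) X₀ r h (Finsupp.single x a) = Finsupp.single (φ h • x) (r h a) := by
  unfold actG
  rw [Finsupp.mapRange_single, Finsupp.mapDomain_single]

lemma actH_single (W : Subgroup H) (h : H) (c : H ⧸ W) (a : X₀) :
    actH X₀ r W h (Finsupp.single c a) = Finsupp.single (h • c) (r h a) := by
  unfold actH
  rw [Finsupp.mapRange_single, Finsupp.mapDomain_single]

variable (φ U)

/-- push-forward along the orbit map of `x`, raw form -/
def eR (x : G ⧸ U) : ((H ⧸ U.comap φ) →₀ X₀) →+ ((G ⧸ U) →₀ X₀) :=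
  Finsupp.mapDomain.addMonoidHom (orbMap φ U x)

/-- pull-back along the orbit map of `x`, raw form -/
def pR (x : G ⧸ U) : ((G ⧸ U) →₀ X₀) →+ ((H ⧸ U.comap φ) →₀ X₀) :=
  Finsupp.comapDomain.addMonoidHom (orbMap_injective φ U x)

lemma eR_single (x : G ⧸ U) (c : H ⧸ U.comap φ) (a : X₀) :
    eR φ U X₀ x (Finsupp.single c a) = Finsupp.single (orbMap φ U x c) a :=
  Finsupp.mapDomain_single

lemma pR_apply (x : G ⧸ U) (b : (G ⧸ U) →₀ X₀) (c : H ⧸ U.comap φ) :
    pR φ U X₀ x b c = b (orbMap φ U x c) := rfl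

lemma eR_act (x : G ⧸ U) (h : H) (m : (H ⧸ U.comap φ) →₀ X₀) :
    eR φ U X₀ x (actH X₀ r (U.comap φ) h m) = actG (φ := φ) (U := U) X₀ r h (eR φ U X₀ x m) := by
  induction m using Finsupp.induction_linear with
  | zero =>
    have h1 : actH X₀ r (U.comap φ) h 0 = 0 := by
      unfold actH; rw [Finsupp.mapRange_zero, Finsupp.mapDomain_zero]
    have h2 : actG (φ := φ) (U := U) X₀ r h 0 = 0 := by
      unfold actG; rw [Finsupp.mapRange_zero, Finsupp.mapDomain_zero]
    rw [h1, map_zero, h2]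
  | add a b ha hb =>
    have h1 : actH X₀ r (U.comap φ) h (a + b) =
        actH X₀ r (U.comap φ) h a + actH X₀ r (U.comap φ) h b := by
      unfold actH; rw [Finsupp.mapRange_add (fun x y => map_add (r h) x y), Finsupp.mapDomain_add]
    have h2 : ∀ a b : (G ⧸ U) →₀ X₀, actG (φ := φ) (U := U) X₀ r h (a + b) =
        actG (φ := φ) (U := U) X₀ r h a + actG (φ := φ) (U := U) X₀ r h b := by
      intro a b
      unfold actG; rw [Finsupp.mapRange_add (fun x y => map_add (r h) x y), Finsupp.mapDomain_add]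
    rw [h1, map_add, map_add, h2, ha, hb]
  | single c a =>
    rw [actH_single, eR_single, eR_single, actG_single, orbMap_smul]

lemma pR_act (x : G ⧸ U) (h : H) (b : (G ⧸ U) →₀ X₀) :
    pR φ U X₀ x (actG (φ := φ) (U := U) X₀ r h b) = actH X₀ r (U.comap φ) h (pR φ U X₀ x b) := by
  refine Finsupp.ext fun c => ?_
  have hc : c = h • (h⁻¹ • c) := (smul_inv_smul h c).symm
  rw [pR_apply]
  conv_lhs => rw [hc, orbMap_smul]
  rw [actG_apply]
  conv_rhs => rw [hc]
  rw [actH_apply, pR_apply]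

lemma pR_single_of_ne (i : Orb φ U) (y : G ⧸ U) (a : X₀)
    (hne : Quotient.mk (orbSetoid φ U) y ≠ i) :
    pR φ U X₀ (orbRep φ U i) (Finsupp.single y a) = 0 := by
  classical
  refine Finsupp.ext fun c => ?_
  rw [pR_apply, Finsupp.single_apply, if_neg]
  · rfl
  · intro h
    exact hne (orb_eq_of_orbMap_eq φ U h.symm)

lemma eR_pR_single (y : G ⧸ U) (a : X₀) :
    eR φ U X₀ (orbRep φ U (Quotient.mk (orbSetoid φ U) y))
      (pR φ U X₀ (orbRep φ U (Quotient.mk (orbSetoid φ U) y)) (Finsupp.single y a)) =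
        Finsupp.single y a := by
  classical
  obtain ⟨c, hc⟩ := exists_orbMap_eq φ U y
  have h1 : pR φ U X₀ (orbRep φ U (Quotient.mk (orbSetoid φ U) y)) (Finsupp.single y a) =
      Finsupp.single c a := by
    refine Finsupp.ext fun c' => ?_
    rw [pR_apply, Finsupp.single_apply, Finsupp.single_apply]
    by_cases hcc : c = c'
    · rw [if_pos hcc, if_pos (by rw [← hcc, hc])]
    · rw [if_neg hcc, if_neg]
      intro h
      exact hcc (orbMap_injective φ U _ (hc.trans h))
  rw [h1, eR_single, hc]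

/-- **orbit decomposition**, raw form -/
theorem sum_eR_pR [Fintype (Orb φ U)] (b : (G ⧸ U) →₀ X₀) :
    ∑ i : Orb φ U, eR φ U X₀ (orbRep φ U i) (pR φ U X₀ (orbRep φ U i) b) = b := by
  classical
  have key : (∑ i : Orb φ U, (eR φ U X₀ (orbRep φ U i)).comp (pR φ U X₀ (orbRep φ U i))) =
      AddMonoidHom.id ((G ⧸ U) →₀ X₀) := by
    refine Finsupp.addHom_ext fun y a => ?_
    rw [AddMonoidHom.finsetSum_apply,
      Finset.sum_eq_single (Quotient.mk (orbSetoid φ U) y)]
    · exact eR_pR_single φ U X₀ y a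
    · intro i _ hi
      show eR φ U X₀ (orbRep φ U i) (pR φ U X₀ (orbRep φ U i) (Finsupp.single y a)) = 0
      rw [pR_single_of_ne φ U X₀ i y a (Ne.symm hi), map_zero]
    · intro h
      exact absurd (Finset.mem_univ _) h
  have := DFunLike.congr_fun key b
  rw [AddMonoidHom.finsetSum_apply] at this
  exact this

end Raw

/-! ### push-forward and pull-back along the orbit maps -/

/-- push-forward along the orbit map of `x` -/
def orbE (x : G ⧸ U) : indR (U.comap φ) A →+ K.ind φ U A :=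
  eR φ U A.V x

/-- pull-back along the orbit map of `x` -/
def orbP (x : G ⧸ U) : K.ind φ U A →+ indR (U.comap φ) A :=
  pR φ U A.V x

lemma ind_ρ_single (h : H) (x : G ⧸ U) (a : A) :
    (K.ind φ U A).ρ h (Finsupp.single x a : (G ⧸ U) →₀ A) =
      (Finsupp.single (φ h • x) (A.ρ h a) : (G ⧸ U) →₀ A) :=
  K.indρ_single φ U A h x a

lemma ind_ρ_eq_actG (h : H) (b : K.ind φ U A) :
    (K.ind φ U A).ρ h b =
      actG (φ := φ) (U := U) A.V (fun h => (A.ρ h).toAddMonoidHom) h b := rfl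

lemma isEquiv_orbE (x : G ⧸ U) : IsEquiv (orbE φ U A x) :=
  fun h m => eR_act φ U A.V (fun h => (A.ρ h).toAddMonoidHom) x h m

lemma isEquiv_orbP (x : G ⧸ U) : IsEquiv (orbP φ U A x) :=
  fun h b => pR_act φ U A.V (fun h => (A.ρ h).toAddMonoidHom) x h b

variable [Finite (G ⧸ U)]

instance : Finite (Orb φ U) := Quotient.finite _

/-- **orbit decomposition**: `b = ∑_{orbits} orbE (orbP b)`. -/
theorem sum_orbE_orbP [Fintype (Orb φ U)] (b : K.ind φ U A) :
    ∑ i : Orb φ U, orbE φ U A (orbRep φ U i) (orbP φ U A (orbRep φ U i) b) = b :=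
  sum_eR_pR φ U A.V b

/-! ### passing from one orbit to the whole induced module -/

/-- If every level-constant 2-cocycle of `indR W A` with class killed by `p` is represented at
level `V₁` (with `p` times the representative a coboundary at level `V₁`), the same holds for
`K.ind φ U A`. -/
theorem exists_sum_of_single (L : LevelSys H) (p : ℕ) (V₁ : Subgroup H)
    (hsingle : ∀ Y : H × H → indR (U.comap φ) A, Y ∈ L.Z2 (indR (U.comap φ) A) →
      p • Y ∈ L.B2 (indR (U.comap φ) A) →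
      ∃ Y' : H × H → indR (U.comap φ) A, Y' ∈ Z2At V₁ (indR (U.comap φ) A) ∧
        Y - Y' ∈ L.B2 (indR (U.comap φ) A) ∧ IsCobAt₂ V₁ (indR (U.comap φ) A) (p • Y'))
    (X : H × H → K.ind φ U A) (hX : X ∈ L.Z2 (K.ind φ U A))
    (hpX : p • X ∈ L.B2 (K.ind φ U A)) :
    ∃ X' : H × H → K.ind φ U A, X' ∈ Z2At V₁ (K.ind φ U A) ∧
      X - X' ∈ L.B2 (K.ind φ U A) ∧ IsCobAt₂ V₁ (K.ind φ U A) (p • X') := by
  classical
  letI : Fintype (Orb φ U) := Fintype.ofFinite _
  have hY : ∀ i : Orb φ U, ∃ Y' : H × H → indR (U.comap φ) A,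
      Y' ∈ Z2At V₁ (indR (U.comap φ) A) ∧
      (orbP φ U A (orbRep φ U i)) ∘ X - Y' ∈ L.B2 (indR (U.comap φ) A) ∧
      IsCobAt₂ V₁ (indR (U.comap φ) A) (p • Y') := by
    intro i
    refine hsingle _ (mem_Z2_comp (isEquiv_orbP φ U A _) L hX) ?_
    have h1 : p • ((orbP φ U A (orbRep φ U i)) ∘ X) = (orbP φ U A (orbRep φ U i)) ∘ (p • X) := by
      funext z
      simp only [Pi.smul_apply, Function.comp_apply, map_nsmul]
    rw [h1]
    exact mem_B2_comp (isEquiv_orbP φ U A _) L hpX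
  choose Y' hY'Z hY'B hY'C using hY
  refine ⟨∑ i : Orb φ U, (orbE φ U A (orbRep φ U i)) ∘ (Y' i), ?_, ?_, ?_⟩
  · exact (Z2At V₁ (K.ind φ U A)).sum_mem
      (fun i _ => mem_Z2At_comp (isEquiv_orbE φ U A _) (hY'Z i))
  · have h1 : X = ∑ i : Orb φ U,
        (orbE φ U A (orbRep φ U i)) ∘ ((orbP φ U A (orbRep φ U i)) ∘ X) := by
      funext z
      rw [Finset.sum_apply]
      exact (sum_orbE_orbP φ U A (X z)).symm
    have h2 : X - ∑ i : Orb φ U, (orbE φ U A (orbRep φ U i)) ∘ (Y' i) =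
        ∑ i : Orb φ U, (orbE φ U A (orbRep φ U i)) ∘
          ((orbP φ U A (orbRep φ U i)) ∘ X - Y' i) := by
      conv_lhs => rw [h1]
      rw [← Finset.sum_sub_distrib]
      refine Finset.sum_congr rfl fun i _ => ?_
      funext z
      simp only [Pi.sub_apply, Function.comp_apply, map_sub]
    rw [h2]
    exact (L.B2 (K.ind φ U A)).sum_mem
      (fun i _ => mem_B2_comp (isEquiv_orbE φ U A _) L (hY'B i))
  · have h3 : p • ∑ i : Orb φ U, (orbE φ U A (orbRep φ U i)) ∘ (Y' i) =
        ∑ i : Orb φ U, (orbE φ U A (orbRep φ U i)) ∘ (p • Y' i) := by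
      rw [Finset.smul_sum]
      refine Finset.sum_congr rfl fun i _ => ?_
      funext z
      simp only [Pi.smul_apply, Function.comp_apply, map_nsmul]
    rw [h3]
    exact (B2At V₁ (K.ind φ U A)).sum_mem
      (fun i _ => isCobAt₂_comp (isEquiv_orbE φ U A _) (hY'C i))

end Fermat.Agent.S55.Inv.GO4.H978

end
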