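import Fermat.Agent.S55.Inv.GO4.Defs
import Fermat.Agent.S55.Inv.GO4.H978.Orbit

/-!
# S55 / `InvSpec` / GO4-LD, step LD-c (helper978): descent to the finite quotient, PROOF

`descent : DescentStatement`.
-/

set_option autoImplicit false

noncomputable section

namespace Fermat.Agent.S55.Inv.GO4.H978

open Fermat.Agent.S55 Fermat.Agent.S55.Tow Fermat.Agent.S55.PT groupCohomology
open Fermat.Agent.S55.KC

/-- **LD-c** (descent to `Dec_q(L)`), exact statement: a 2-cocycle `X'` of `G_q` with values in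
`K.ind (rl q) K₀.U ℚ̄_qˣ` which is inflated from the normal level `L.V q` is `locM h q τ` for a
2-cocycle `τ` of `Dec_q(L)` with values in `semiLoc h q`; if `p • X'` is a coboundary at level
`L.V q`, then `p • τ` is a coboundary. -/
def DescentStatement : Prop :=
  ∀ (S : Finset Nat.Primes) (K₀ L : Level S) (h : K₀ ≤ L) (q : Nat.Primes) (p : ℕ)
    (X' : Gl q × Gl q → K.ind (rl q) K₀.U (Tow.unitsQpbar q)),
    X' ∈ KC.Z2At (L.V q) (K.ind (rl q) K₀.U (Tow.unitsQpbar q)) →
    KC.IsCobAt₂ (L.V q) (K.ind (rl q) K₀.U (Tow.unitsQpbar q)) (p • X') →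
    ∃ τ : L.Dec q × L.Dec q → (semiLoc h q).V,
      τ ∈ cocycles₂ (semiLoc h q) ∧ p • τ ∈ coboundaries₂ (semiLoc h q) ∧ locM h q τ = X'

variable {S : Finset Nat.Primes}

section Proj

variable (L : Level S) (q : Nat.Primes)

open Classical in
/-- a retraction `ℚ̄_qˣ → L_qˣ` of the inclusion (zero outside the invariants) -/
def locProj (a : (unitsQpbar q).V) : (L.locUnits q).V :=
  if ha : ∀ g ∈ L.V q, (unitsQpbar q).ρ g a = a then L.locMk q a ha else 0

lemma locProj_zero : locProj L q 0 = 0 := by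
  unfold locProj
  split_ifs with h
  · apply L.locCoe_injective q
    rw [Level.locCoe_mk, map_zero]
  · rfl

lemma locCoe_locProj {a : (unitsQpbar q).V} (ha : ∀ g ∈ L.V q, (unitsQpbar q).ρ g a = a) :
    L.locCoe q (locProj L q a) = a := by
  unfold locProj
  rw [dif_pos ha, Level.locCoe_mk]

end Proj

section Main

variable {K₀ L : Level S} (h : K₀ ≤ L) (q : Nat.Primes)

/-- `Λ = mapRange locCoe : (Q →₀ L_qˣ) → (Q →₀ ℚ̄_qˣ)`, raw form -/
def lamR : (K₀.Gal →₀ (L.locUnits q).V) →+ ((Tow.GQ ⧸ K₀.U) →₀ (Tow.unitsQpbar q).V) :=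
  Finsupp.mapRange.addMonoidHom (L.locCoe q).toAddMonoidHom

lemma lamR_apply (t : K₀.Gal →₀ (L.locUnits q).V) (x : K₀.Gal) :
    lamR (K₀ := K₀) q t x = L.locCoe q (t x) := rfl

lemma lamR_single (x : K₀.Gal) (a : (L.locUnits q).V) :
    lamR (K₀ := K₀) q (Finsupp.single x a) = Finsupp.single x (L.locCoe q a) :=
  Finsupp.mapRange_single (hf := map_zero _)

lemma lamR_injective : Function.Injective (lamR (K₀ := K₀) (L := L) q) := by
  intro t t' htt
  refine Finsupp.ext fun x => ?_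
  apply L.locCoe_injective q
  have := DFunLike.congr_fun htt x
  exact this

lemma lamR_mapRange_locProj (b : (Tow.GQ ⧸ K₀.U) →₀ (Tow.unitsQpbar q).V)
    (hb : ∀ x, ∀ s ∈ L.V q, (unitsQpbar q).ρ s (b x) = b x) :
    lamR (K₀ := K₀) q (Finsupp.mapRange (locProj L q) (locProj_zero L q) b) = b := by
  refine Finsupp.ext fun x => ?_
  rw [lamR_apply, Finsupp.mapRange_apply]
  exact locCoe_locProj L q (hb x)

/-- `Λ`, typed -/
def lam : (semiLoc h q).V →+ K.ind (rl q) K₀.U (Tow.unitsQpbar q) := lamR q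

lemma lam_injective : Function.Injective (lam h q) := lamR_injective q

lemma locM_eq_lam (τ : L.Dec q × L.Dec q → (semiLoc h q).V) (σ σ' : Gl q) :
    locM h q τ (σ, σ') = lam h q (τ ((QuotientGroup.mk σ : L.Dec q),
      (QuotientGroup.mk σ' : L.Dec q))) := rfl

/-- the action of `Dec_q(L)` on `semiLoc`, on `single` -/
lemma semiLoc_ρ_single (σ : Gl q) (x : K₀.Gal) (a : (L.locUnits q).V) :
    (semiLoc h q).ρ (QuotientGroup.mk σ : L.Dec q)
      (Finsupp.single x a : K₀.Gal →₀ (L.locUnits q).V) =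
      (Finsupp.single (rl q σ • x)
        ((L.locUnits q).ρ (QuotientGroup.mk σ : L.Dec q) a) : K₀.Gal →₀ (L.locUnits q).V) := by
  have h1 := dInd_ρ_single (decTo h q) (L.locUnits q) (QuotientGroup.mk σ : L.Dec q) x a
  rw [h1]
  induction x using QuotientGroup.induction_on with
  | H g => rfl

/-- compatibility of `Λ` with the actions -/
lemma lam_ρ (σ : Gl q) (t : (semiLoc h q).V) :
    lam h q ((semiLoc h q).ρ (QuotientGroup.mk σ : L.Dec q) t) =
      (K.ind (rl q) K₀.U (Tow.unitsQpbar q)).ρ σ (lam h q t) := by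
  have key : (lam h q).comp ((semiLoc h q).ρ (QuotientGroup.mk σ : L.Dec q)).toAddMonoidHom =
      (((K.ind (rl q) K₀.U (Tow.unitsQpbar q)).ρ σ).toAddMonoidHom).comp (lam h q) := by
    refine Finsupp.addHom_ext fun x a => ?_
    show lamR q ((semiLoc h q).ρ (QuotientGroup.mk σ : L.Dec q)
        (Finsupp.single x a : K₀.Gal →₀ (L.locUnits q).V)) =
      (K.ind (rl q) K₀.U (Tow.unitsQpbar q)).ρ σ
        (lamR q (Finsupp.single x a : K₀.Gal →₀ (L.locUnits q).V))
    rw [semiLoc_ρ_single, lamR_single, lamR_single, ind_ρ_single]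
    rfl
  exact DFunLike.congr_fun key t

include h in
/-- `V = L.V q` acts trivially on `GQ ⧸ K₀.U` -/
lemma rl_smul_eq_of_mem {s : Gl q} (hs : s ∈ L.V q) (x : Tow.GQ ⧸ K₀.U) : rl q s • x = x :=
  smul_quot_eq_of_mem K₀.U (Level.U_anti h (Subgroup.mem_comap.1 hs)) x

include h in
/-- an element of `B` fixed by `V` has coefficients in the invariants -/
lemma coeff_fixed {b : (Tow.GQ ⧸ K₀.U) →₀ (Tow.unitsQpbar q).V}
    (hb : ∀ s ∈ L.V q, (K.ind (rl q) K₀.U (Tow.unitsQpbar q)).ρ s b = b) (x : Tow.GQ ⧸ K₀.U) :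
    ∀ s ∈ L.V q, (unitsQpbar q).ρ s (b x) = b x := by
  intro s hs
  have h1 := actG_apply (φ := rl q) (U := K₀.U) (Tow.unitsQpbar q).V
    (fun h => ((Tow.unitsQpbar q).ρ h).toAddMonoidHom) s b x
  rw [rl_smul_eq_of_mem h q hs x] at h1
  have h2 : actG (φ := rl q) (U := K₀.U) (Tow.unitsQpbar q).V
      (fun h => ((Tow.unitsQpbar q).ρ h).toAddMonoidHom) s b = b := hb s hs
  rw [h2] at h1
  exact h1.symm

/-- the lift of a `V`-fixed element of `B` -/
def lift (b : K.ind (rl q) K₀.U (Tow.unitsQpbar q)) : (semiLoc h q).V :=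
  (Finsupp.mapRange (locProj L q) (locProj_zero L q)
    (b : (Tow.GQ ⧸ K₀.U) →₀ (Tow.unitsQpbar q).V) : K₀.Gal →₀ (L.locUnits q).V)

lemma lam_lift {b : K.ind (rl q) K₀.U (Tow.unitsQpbar q)}
    (hb : ∀ s ∈ L.V q, (K.ind (rl q) K₀.U (Tow.unitsQpbar q)).ρ s b = b) :
    lam h q (lift h q b) = b :=
  lamR_mapRange_locProj q b (fun x => coeff_fixed h q hb x)

end Main

/-- **LD-c.** -/
theorem descent : DescentStatement := by
  intro S K₀ L h q p X' hX' hpX'
  obtain ⟨hcoc, hat⟩ := hX'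
  obtain ⟨y, hy, hdy⟩ := hpX'
  -- representatives
  have hout : ∀ σ : Gl q, ∃ s ∈ L.V q,
      (QuotientGroup.mk σ : L.Dec q).out = σ * s := by
    intro σ
    obtain ⟨s, hs⟩ := QuotientGroup.mk_out_eq_mul (L.V q) σ
    exact ⟨s.1, s.2, hs⟩
  have hXout : ∀ σ σ' : Gl q, X' ((QuotientGroup.mk σ : L.Dec q).out,
      (QuotientGroup.mk σ' : L.Dec q).out) = X' (σ, σ') := by
    intro σ σ'
    obtain ⟨s, hs, e⟩ := hout σ
    obtain ⟨s', hs', e'⟩ := hout σ'
    rw [e, e']
    exact (hat σ σ' s s' hs hs').1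
  have hyout : ∀ σ : Gl q, y ((QuotientGroup.mk σ : L.Dec q).out) = y σ := by
    intro σ
    obtain ⟨s, hs, e⟩ := hout σ
    rw [e]
    exact (hy σ s hs).1
  -- the descended cochains
  let τ : L.Dec q × L.Dec q → (semiLoc h q).V := fun d => lift h q (X' (d.1.out, d.2.out))
  let c : L.Dec q → (semiLoc h q).V := fun d => lift h q (y d.out)
  have hτ : ∀ σ σ' : Gl q, lam h q (τ ((QuotientGroup.mk σ : L.Dec q),
      (QuotientGroup.mk σ' : L.Dec q))) = X' (σ, σ') := by
    intro σ σ'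
    show lam h q (lift h q (X' (_, _))) = _
    rw [lam_lift h q (fun s hs => (hat _ _ s s hs hs).2)]
    exact hXout σ σ'
  have hc : ∀ σ : Gl q, lam h q (c (QuotientGroup.mk σ : L.Dec q)) = y σ := by
    intro σ
    show lam h q (lift h q (y _)) = _
    rw [lam_lift h q (fun s hs => (hy _ s hs).2)]
    exact hyout σ
  refine ⟨τ, ?_, ?_, ?_⟩
  · rw [mem_cocycles₂_iff]
    rw [mem_cocycles₂_iff] at hcoc
    intro g g' g''
    induction g using QuotientGroup.induction_on with
    | H σ =>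
      induction g' using QuotientGroup.induction_on with
      | H σ' =>
        induction g'' using QuotientGroup.induction_on with
        | H σ'' =>
          apply lam_injective h q
          rw [map_add, map_add, lam_ρ, hτ, hτ]
          have e1 : ((QuotientGroup.mk σ : L.Dec q) * (QuotientGroup.mk σ' : L.Dec q)) =
              (QuotientGroup.mk (σ * σ') : L.Dec q) := rfl
          have e2 : ((QuotientGroup.mk σ' : L.Dec q) * (QuotientGroup.mk σ'' : L.Dec q)) =
              (QuotientGroup.mk (σ' * σ'') : L.Dec q) := rfl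
          rw [e1, e2, hτ, hτ]
          exact hcoc σ σ' σ''
  · refine ⟨c, ?_⟩
    funext ⟨g, g'⟩
    induction g using QuotientGroup.induction_on with
    | H σ =>
      induction g' using QuotientGroup.induction_on with
      | H σ' =>
        apply lam_injective h q
        rw [d₁₂_hom_apply]
        simp only [Pi.smul_apply]
        rw [map_add, map_sub, lam_ρ, map_nsmul, hτ, hc, hc]
        have e1 : ((QuotientGroup.mk σ : L.Dec q) * (QuotientGroup.mk σ' : L.Dec q)) =
            (QuotientGroup.mk (σ * σ') : L.Dec q) := rfl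
        rw [e1, hc]
        have := congrFun hdy (σ, σ')
        rw [d₁₂_hom_apply] at this
        simpa using this
  · funext ⟨σ, σ'⟩
    rw [locM_eq_lam, hτ]

end Fermat.Agent.S55.Inv.GO4.H978

end
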