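import Fermat.Agent.S55.Inv.GO4.Spec
import Fermat.Agent.S55.Inv.GO4.H978.Descent
import Fermat.Agent.S55.KC.IndWCFH475
import Fermat.Agent.S55.KC.IndH323
import Fermat.Agent.S55.KC.QInfH73
import Fermat.Agent.S55.KC.Q12H321
import Fermat.Agent.S55.KC.ClassFormH323
import Fermat.Agent.S55.PT.FrattiniH424
import Fermat.Agent.S55.Local.H374.KummerEmb

/-!
# S55 / `InvSpec` / GO4-LD (helper978): `locDesc : LocDescLeaf p S`

Local descent of `p`-torsion level-constant classes of `H²(G_q, Ind_{K₀.U} ℚ̄_qˣ)` to the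
`S`-tower, from the unboundedness of the local `p`-degrees (`K.AR.DecUnbounded`).

Steps (blueprint `coord/S55-INV-GO4.md` §2):
* `exists_level_dvd`  : an `S`-level `L ≥ K₀` with `p ∣ [K₀.V q : L.V q]`;
* `Abs.exists_mem_Z2At_of_torsion` for `indR W ℚ̄_qˣ` (weak class formation, KC layer);
* `Orbit.exists_sum_of_single` : orbit decomposition of `K.ind (rl q) K₀.U ℚ̄_qˣ`;
* `Descent.descent` : descent to the finite quotient `Dec_q(L)`.
-/

set_option autoImplicit false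
set_option linter.style.haveILetI false

noncomputable section

namespace Fermat.Agent.S55.Inv.GO4.H978

open Fermat.Agent.S55 Fermat.Agent.S55.Tow Fermat.Agent.S55.PT groupCohomology
open Fermat.Agent.S55.KC

variable {S : Finset Nat.Primes}

/-- **Step A.**  From `DecUnbounded`: an `S`-level `L ≥ K₀` with `p ∣ [K₀.V q : L.V q]`. -/
theorem exists_level_dvd (p : ℕ) (hp : p.Prime) (hDec : K.AR.DecUnbounded S p)
    (K₀ : Level S) (q : S) :
    ∃ (L : Level S) (_ : K₀ ≤ L), p ∣ (L.V q.1).relIndex (K₀.V q.1) := by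
  set m : ℕ := Nat.card (K₀.Dec q.1) with hm
  have hmpos : 0 < m := Nat.card_pos
  obtain ⟨L, hKL, hdvd⟩ := hDec K₀ m
  refine ⟨L, hKL, ?_⟩
  have h1 : p ^ m ∣ Nat.card (L.Dec q.1) := hdvd q.1 q.2
  have h2 : (L.V q.1).relIndex (K₀.V q.1) * (K₀.V q.1).index = (L.V q.1).index :=
    Subgroup.relIndex_mul_index (Level.V_anti hKL q.1)
  have h3 : Nat.card (L.Dec q.1) = (L.V q.1).index := rfl
  have h4 : m = (K₀.V q.1).index := rfl
  rw [h3, ← h2, ← h4] at h1
  by_contra hnd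
  have hcop : Nat.Coprime (p ^ m) ((L.V q.1).relIndex (K₀.V q.1)) :=
    Nat.Coprime.pow_left m ((Nat.Prime.coprime_iff_not_dvd hp).2 hnd)
  have h5 : p ^ m ∣ m := hcop.dvd_of_dvd_mul_left h1
  have h6 := Nat.le_of_dvd hmpos h5
  have h7 := Nat.lt_pow_self hp.one_lt (n := m)
  omega

/-- **GO4-LD.** -/
theorem locDesc (p : ℕ) (S : Finset Nat.Primes) : LocDescLeaf p S := by
  intro hp hDec K₀ q X hX hpX
  haveI : Fact p.Prime := ⟨hp⟩
  obtain ⟨L, hKL, hpn⟩ := exists_level_dvd p hp hDec K₀ q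
  -- the local level system
  have hNC : (localLevels q.1).NormalCofinal := H424.localLevels_normalCofinal q.1
  have hFI : (localLevels q.1).FiniteIndex := H424.localLevels_finiteIndex q.1
  have hW : K₀.U.comap (rl q.1) ∈ (localLevels q.1).levels := ⟨K₀.F, K₀.unram.1, rfl⟩
  have hV₁ : L.V q.1 ∈ (localLevels q.1).levels := ⟨L.F, L.unram.1, rfl⟩
  have hV₁n : (L.V q.1).Normal := inferInstance
  have hV₁le : L.V q.1 ≤ K₀.U.comap (rl q.1) := Level.V_anti hKL q.1
  -- the weak class formation `indR W ℚ̄_qˣ`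
  have hCF : IsClassFormation (localLevels q.1) (Tow.unitsQpbar q.1) :=
    H323.localClassFormation q.1
  have hWCF : IsWCF (localLevels q.1) (indR (K₀.U.comap (rl q.1)) (Tow.unitsQpbar q.1))
      (K₀.U.comap (rl q.1)) (fun V => V.relIndex (K₀.U.comap (rl q.1))) :=
    H475.indWCF (Gl q.1) (localLevels q.1) (Tow.unitsQpbar q.1) _ _ hFI hCF hW le_rfl
  have hsmA : (localLevels q.1).IsSmooth (Tow.unitsQpbar q.1) :=
    Fermat.Agent.S55.Local.H374.unitsQ_isSmooth q.1
  have hsm : (localLevels q.1).IsSmooth (indR (K₀.U.comap (rl q.1)) (Tow.unitsQpbar q.1)) :=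
    H323.isSmooth_indR_h323 (localLevels q.1) hNC ⟨_, hW, le_rfl⟩ (Tow.unitsQpbar q.1) hsmA
  have hsingle := fun Y hY hpY =>
    exists_mem_Z2At_of_torsion (localLevels q.1) p
      (indR (K₀.U.comap (rl q.1)) (Tow.unitsQpbar q.1)) (K₀.U.comap (rl q.1))
      (fun V => V.relIndex (K₀.U.comap (rl q.1))) hNC hFI hsm
      (fun V hV hVn hle => by
        haveI := hVn
        exact ⟨hWCF.npos V hV hle, ⟨(H321.q2 (Gl q.1) _ V).some.trans (hWCF.h2 V hV hle).some⟩⟩)
      (fun V' V hV' hV'n hV hVn hle hle0 f hf hc => by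
        haveI := hV'n
        haveI := hVn
        exact H73.qInf (Gl q.1) _ V' V hle (hWCF.h1rel V' V hV' hV hle hle0) f hf hc)
      (L.V q.1) hV₁ hV₁n hV₁le hpn Y hY hpY
  obtain ⟨X', hX'Z, hXX', hX'C⟩ :=
    exists_sum_of_single (rl q.1) K₀.U (Tow.unitsQpbar q.1) (localLevels q.1) p (L.V q.1)
      hsingle X hX hpX
  obtain ⟨τ, hτ, hpτ, hloc⟩ := descent S K₀ L hKL q.1 p X' hX'Z hX'C
  exact ⟨L, hKL, τ, hτ, hpτ, by rw [hloc]; exact hXX'⟩

end Fermat.Agent.S55.Inv.GO4.H978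

end
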