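import Fermat.Agent.S55.KC.H2OfAtH287

/-!
# S55 / `InvSpec` / GO4-LD (helper978): abstract part

* `mem_of_nsmul_eq_zero_of_cyclic` : in a finite cyclic group, a subgroup whose order is
  divisible by `p` contains every element killed by `p`;
* transport of cochain properties (`IsAt₁`, `IsAt₂`, `Z2At`, `IsCobAt₂`, `L.Z2`, `L.B2`) along
  equivariant additive maps (any coefficient ring);
* `exists_mem_Z2At_of_torsion` : in a weak class formation, a level-constant 2-cocycle whose class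
  is killed by `p` is cohomologous to a cocycle inflated from any normal level `V₁` whose order
  `n V₁` is divisible by `p`, and `p` times the latter is a coboundary at level `V₁`.
-/

set_option autoImplicit false

noncomputable section

namespace Fermat.Agent.S55.Inv.GO4.H978

open groupCohomology Fermat.Agent.S55.PT Fermat.Agent.S55.KC Fermat.Agent.S55.KC.H287

/-! ## 1. Cyclic groups -/

/-- In a finite cyclic group `S₂`, a subgroup `S₁` whose order is divisible by `p` contains every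
element killed by `p`. -/
theorem mem_of_nsmul_eq_zero_of_cyclic {X : Type*} [AddCommGroup X] (p : ℕ) [Fact p.Prime]
    {S₁ S₂ : AddSubgroup X} {n₁ n₂ : ℕ} (hn₁ : 0 < n₁) (hn₂ : 0 < n₂)
    (e₁ : S₁ ≃+ ZMod n₁) (e₂ : S₂ ≃+ ZMod n₂) (hle : S₁ ≤ S₂) (hpn : p ∣ n₁)
    {x : X} (hx : x ∈ S₂) (hpx : p • x = 0) : x ∈ S₁ := by
  have hp : p.Prime := Fact.out
  obtain ⟨N', hN'⟩ := hpn
  have hN'pos : 0 < N' := by
    rcases Nat.eq_zero_or_pos N' with h | h
    · rw [h, mul_zero] at hN'; omega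
    · exact h
  have : NeZero n₁ := ⟨hn₁.ne'⟩
  set c₁ : ZMod n₁ := ((N' : ℕ) : ZMod n₁) with hc₁
  have hc₁0 : c₁ ≠ 0 := by
    intro h
    have h1 : n₁ ∣ N' := (ZMod.natCast_eq_zero_iff _ _).1 h
    have h2 := Nat.le_of_dvd hN'pos h1
    have h3 : N' < n₁ := by
      rw [hN']
      have := hp.one_lt
      nlinarith
    omega
  have hc₁p : p • c₁ = 0 := by
    rw [hc₁, nsmul_eq_mul, ← Nat.cast_mul, ← hN', ZMod.natCast_self]
  set g : X := (e₁.symm c₁ : X) with hg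
  have hgp : p • g = 0 := by
    have h1 : p • e₁.symm c₁ = 0 := by
      rw [← map_nsmul, hc₁p, map_zero]
    simpa using congrArg (fun z : S₁ => (z : X)) h1
  have hg0 : g ≠ 0 := by
    intro h
    have h1 : e₁.symm c₁ = 0 := Subtype.ext (by rw [AddSubgroup.coe_zero]; exact h)
    have h2 : c₁ = 0 := by
      have := congrArg e₁ h1
      simpa using this
    exact hc₁0 h2
  have hgord : addOrderOf g = p := addOrderOf_eq_prime hgp hg0
  have hgmem : g ∈ S₁ := (e₁.symm c₁).2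
  have hord : addOrderOf (e₂ ⟨g, hle hgmem⟩) = p := by
    have h1 : addOrderOf (⟨g, hle hgmem⟩ : S₂) = p := by
      rw [← hgord]
      exact (addOrderOf_injective S₂.subtype Subtype.coe_injective ⟨g, hle hgmem⟩).symm
    rw [← h1]
    exact addOrderOf_injective (e₂ : S₂ →+ ZMod n₂) e₂.injective _
  have hcx : p • e₂ ⟨x, hx⟩ = 0 := by
    rw [← map_nsmul]
    have : p • (⟨x, hx⟩ : S₂) = 0 := Subtype.ext (by simpa using hpx)
    rw [this, map_zero]
  obtain ⟨t, ht⟩ := AddSubgroup.mem_zmultiples_iff.1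
    (zmod_mem_zmultiples_of_nsmul_eq_zero hn₂ p _ _ hord hcx)
  have h2 : t • (⟨g, hle hgmem⟩ : S₂) = ⟨x, hx⟩ := by
    apply e₂.injective
    rw [map_zsmul, ht]
  have h3 : t • g = x := by
    simpa using congrArg (fun z : S₂ => (z : X)) h2
  rw [← h3]
  exact S₁.zsmul_mem hgmem t

/-! ## 2. Transport along equivariant additive maps -/

section Transport

variable {G : Type} [Group G] {k : Type} [CommRing k] {M N : Rep.{0, 0, 0} k G}

/-- equivariance of an additive map between representations -/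
def IsEquiv (φ : M →+ N) : Prop := ∀ (g : G) (m : M), φ (M.ρ g m) = N.ρ g (φ m)

variable {φ : M →+ N}

lemma isAt₁_comp (hφ : IsEquiv φ) {V : Subgroup G} {x : G → M} (hx : IsAt₁ V M x) :
    IsAt₁ V N (φ ∘ x) := fun g s hs =>
  ⟨by simp only [Function.comp_apply, (hx g s hs).1],
    by simp only [Function.comp_apply]; rw [← hφ, (hx g s hs).2]⟩

lemma isAt₂_comp (hφ : IsEquiv φ) {V : Subgroup G} {f : G × G → M} (hf : IsAt₂ V M f) :
    IsAt₂ V N (φ ∘ f) := fun g h s t hs ht =>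
  ⟨by simp only [Function.comp_apply, (hf g h s t hs ht).1],
    by simp only [Function.comp_apply]; rw [← hφ, (hf g h s t hs ht).2]⟩

lemma d₁₂_comp (hφ : IsEquiv φ) (x : G → M) :
    (d₁₂ N).hom (φ ∘ x) = φ ∘ (d₁₂ M).hom x := by
  funext ⟨g, h⟩
  simp only [d₁₂_hom_apply, Function.comp_apply, map_add, map_sub]
  rw [hφ g (x h)]

lemma mem_cocycles₂_comp (hφ : IsEquiv φ) {f : G × G → M} (hf : f ∈ cocycles₂ M) :
    φ ∘ f ∈ cocycles₂ N := by
  rw [mem_cocycles₂_iff] at hf ⊢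
  intro g h j
  simp only [Function.comp_apply]
  rw [← map_add, hf g h j, map_add, hφ]

lemma mem_Z2At_comp (hφ : IsEquiv φ) {V : Subgroup G} {f : G × G → M} (hf : f ∈ Z2At V M) :
    φ ∘ f ∈ Z2At V N :=
  ⟨mem_cocycles₂_comp hφ hf.1, isAt₂_comp hφ hf.2⟩

lemma isCobAt₂_comp (hφ : IsEquiv φ) {V : Subgroup G} {f : G × G → M}
    (hf : IsCobAt₂ V M f) : IsCobAt₂ V N (φ ∘ f) := by
  obtain ⟨x, hx, rfl⟩ := hf
  exact ⟨φ ∘ x, isAt₁_comp hφ hx, d₁₂_comp hφ x⟩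

lemma mem_B2_comp (hφ : IsEquiv φ) (L : LevelSys G) {f : G × G → M} (hf : f ∈ L.B2 M) :
    φ ∘ f ∈ L.B2 N := by
  obtain ⟨x, hx, rfl⟩ := hf
  exact ⟨φ ∘ x, LevelSys.IsLC₁.comp hx φ, d₁₂_comp hφ x⟩

lemma mem_Z2_comp (hφ : IsEquiv φ) (L : LevelSys G) {f : G × G → M} (hf : f ∈ L.Z2 M) :
    φ ∘ f ∈ L.Z2 N :=
  ⟨mem_cocycles₂_comp hφ hf.1, LevelSys.IsLC₂.comp hf.2 φ⟩

end Transport

/-! ## 3. Torsion classes in a weak class formation -/

section WCF

variable {G : Type} [Group G]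

/-- In a weak class formation below `V₀` (cochain form: `H2At V B ≃ ZMod (n V)` and injectivity of
inflation), a level-constant 2-cocycle `Y` whose class is killed by `p` is cohomologous to a
cocycle `Y'` inflated from any given normal level `V₁ ≤ V₀` with `p ∣ n V₁`; moreover `p • Y'` is
a coboundary at level `V₁`. -/
theorem exists_mem_Z2At_of_torsion (L : LevelSys G) (p : ℕ) [Fact p.Prime]
    (B : Rep.{0, 0, 0} ℤ G) (V₀ : Subgroup G) (n : Subgroup G → ℕ)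
    (hNC : L.NormalCofinal) (hFI : L.FiniteIndex) (hB : L.IsSmooth B)
    (hcyc : ∀ V : Subgroup G, V ∈ L.levels → V.Normal → V ≤ V₀ →
      0 < n V ∧ Nonempty (H2At V B ≃+ ZMod (n V)))
    (hinf : ∀ V' V : Subgroup G, V' ∈ L.levels → V'.Normal → V ∈ L.levels → V.Normal → V' ≤ V →
      V ≤ V₀ → ∀ f ∈ Z2At V B, IsCobAt₂ V' B f → IsCobAt₂ V B f)
    (V₁ : Subgroup G) (hV₁ : V₁ ∈ L.levels) (hV₁n : V₁.Normal) (hV₁le : V₁ ≤ V₀)
    (hpn : p ∣ n V₁)
    (Y : G × G → B) (hY : Y ∈ L.Z2 B) (hpY : p • Y ∈ L.B2 B) :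
    ∃ Y' : G × G → B, Y' ∈ Z2At V₁ B ∧ Y - Y' ∈ L.B2 B ∧ IsCobAt₂ V₁ B (p • Y') := by
  set x : L.H2 B := L.H2π B ⟨Y, hY⟩ with hx
  have hpx : p • x = 0 := by
    rw [hx, ← map_nsmul, L.H2π_eq_zero_iff]
    exact hpY
  obtain ⟨VF, hVF, hVFn, hVFle, hxF⟩ := exists_psi_eq (L := L) (B := B) hNC x V₁ hV₁
  have hVF0 : VF ≤ V₀ := hVFle.trans hV₁le
  obtain ⟨hn₂, ⟨e₂'⟩⟩ := hcyc VF hVF hVFn hVF0
  obtain ⟨hn₁, ⟨e₁'⟩⟩ := hcyc V₁ hV₁ hV₁n hV₁le
  have hinj₂ := psi_injective hNC hFI hB V₀ hinf VF hVF hVFn hVF0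
  have hinj₁ := psi_injective hNC hFI hB V₀ hinf V₁ hV₁ hV₁n hV₁le
  have e₂ : (psi L B VF hVF).range ≃+ ZMod (n VF) :=
    (AddMonoidHom.ofInjective hinj₂).symm.trans e₂'
  have e₁ : (psi L B V₁ hV₁).range ≃+ ZMod (n V₁) :=
    (AddMonoidHom.ofInjective hinj₁).symm.trans e₁'
  have hmem : x ∈ (psi L B V₁ hV₁).range :=
    mem_of_nsmul_eq_zero_of_cyclic p hn₁ hn₂ e₁ e₂ (range_psi_mono hV₁ hVF hVFle) hpn hxF hpx
  obtain ⟨y, hy⟩ := hmem
  obtain ⟨Y', rfl⟩ := QuotientAddGroup.mk_surjective y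
  rw [psi_mk, psi₀_apply] at hy
  have hYY' : Y - Y'.1 ∈ L.B2 B := by
    have h0 : L.H2π B (⟨Y, hY⟩ - toZ2 L B V₁ hV₁ Y') = 0 := by
      rw [map_sub, hy, ← hx, sub_self]
    exact (L.H2π_eq_zero_iff B _).1 h0
  refine ⟨Y'.1, Y'.2, hYY', ?_⟩
  have hpY'Z : p • Y'.1 ∈ Z2At V₁ B := (Z2At V₁ B).nsmul_mem Y'.2 p
  have hpY'B : p • Y'.1 ∈ L.B2 B := by
    have h1 : p • (Y - Y'.1) ∈ L.B2 B := (L.B2 B).smul_of_tower_mem p hYY'
    have h2 : p • Y'.1 = p • Y - p • (Y - Y'.1) := by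
      rw [smul_sub]; abel
    rw [h2]
    exact (L.B2 B).sub_mem hpY h1
  exact isCobAt₂_of_mem_B2 L hNC hFI B hB V₀ hinf V₁ hV₁ hV₁n hV₁le _ hpY'Z hpY'B

end WCF

end Fermat.Agent.S55.Inv.GO4.H978

end
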